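import Fermat.Agent.GaloisReps.LatticeHecke

/-!
# Conjugation by the Atkin–Lehner matrix `(0, -1; N, 0)`

It is an involution of `Γ₀(N)` commuting with conjugation by `diag(-1, 1)`; it exchanges the
double coset of `diag(1, q)` with that of `diag(q, 1)`.
-/

set_option autoImplicit false

noncomputable section

open CongruenceSubgroup ModularCurve ModularCurve.Period
open Matrix.SpecialLinearGroup (mapGL)
open scoped MatrixGroups

namespace Fermat.Agent.GaloisReps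

variable (N : ℕ) [NeZero N]

/-- `(0, -1; N, 0)`. -/
def atkinGL : GL (Fin 2) ℝ :=
  Matrix.GeneralLinearGroup.mkOfDetNeZero !![(0 : ℝ), -1; (N : ℝ), 0] (by simp [NeZero.ne N])

lemma coe_atkinGL : (atkinGL N : Matrix (Fin 2) (Fin 2) ℝ) = !![(0 : ℝ), -1; (N : ℝ), 0] := rfl

variable {N}

omit [NeZero N] in
lemma natCast_dvd_lower (g : Gamma0 N) : (N : ℤ) ∣ (g : SL(2, ℤ)) 1 0 :=
  (ZMod.intCast_zmod_eq_zero_iff_dvd _ _).mp (Gamma0_mem.mp g.2)

/-- The conjugate of an element of `Γ₀(N)`. -/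
def atkinConjFun (g : Gamma0 N) : Gamma0 N :=
  ⟨⟨!![(g : SL(2, ℤ)) 1 1, -((g : SL(2, ℤ)) 1 0 / (N : ℤ));
      -((N : ℤ) * (g : SL(2, ℤ)) 0 1), (g : SL(2, ℤ)) 0 0], by
    have h := (g : SL(2, ℤ)).det_coe
    rw [Matrix.det_fin_two] at h
    rw [Matrix.det_fin_two_of]
    linear_combination h - (g : SL(2, ℤ)) 0 1 * Int.ediv_mul_cancel (natCast_dvd_lower g)⟩, Gamma0_mem.mpr (by
    show ((-((N : ℤ) * (g : SL(2, ℤ)) 0 1) : ℤ) : ZMod N) = 0
    simp)⟩

omit [NeZero N] in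
lemma coe_atkinConjFun (g : Gamma0 N) :
    ((atkinConjFun g : SL(2, ℤ)) : Matrix (Fin 2) (Fin 2) ℤ) =
      !![(g : SL(2, ℤ)) 1 1, -((g : SL(2, ℤ)) 1 0 / (N : ℤ));
        -((N : ℤ) * (g : SL(2, ℤ)) 0 1), (g : SL(2, ℤ)) 0 0] := rfl

lemma atkinGL_mul_mapGL (g : Gamma0 N) :
    atkinGL N * mapGL ℝ (g : SL(2, ℤ)) = mapGL ℝ (atkinConjFun g : SL(2, ℤ)) * atkinGL N := by
  obtain ⟨k, hk⟩ := natCast_dvd_lower g
  have hdiv : (g : SL(2, ℤ)) 1 0 / (N : ℤ) = k := by
    rw [hk, Int.mul_ediv_cancel_left _ (Nat.cast_ne_zero.mpr (NeZero.ne N))]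
  have hk' : (((g : SL(2, ℤ)) 1 0 : ℤ) : ℝ) = (N : ℝ) * k := by rw [hk]; push_cast; ring
  apply Units.ext
  ext i j
  fin_cases i <;> fin_cases j <;>
    simp [Units.val_mul, coe_atkinGL, coe_atkinConjFun, Matrix.mul_apply, Fin.sum_univ_two, hdiv,
      hk', mul_comm]

lemma natCast_mul_ediv (x : ℤ) : (N : ℤ) * x / (N : ℤ) = x :=
  Int.mul_ediv_cancel_left _ (Nat.cast_ne_zero.mpr (NeZero.ne N))

lemma neg_natCast_mul_ediv (x : ℤ) : -((N : ℤ) * x) / (N : ℤ) = -x := by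
  rw [← mul_neg, natCast_mul_ediv]

lemma atkinConjFun_eq_iff (g h : Gamma0 N) :
    atkinConjFun g = h ↔ atkinGL N * mapGL ℝ (g : SL(2, ℤ)) = mapGL ℝ (h : SL(2, ℤ)) * atkinGL N := by
  refine ⟨fun e => e ▸ atkinGL_mul_mapGL g, fun e => Subtype.ext (Periods.mapGL_int_injective ?_)⟩
  exact mul_right_cancel ((atkinGL_mul_mapGL g).symm.trans e)

variable (N)

/-- Conjugation by the Atkin–Lehner matrix, as an endomorphism of `Γ₀(N)`. -/
def atkinConj : Gamma0 N →* Gamma0 N where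
  toFun := atkinConjFun
  map_one' := (atkinConjFun_eq_iff _ _).mpr (by simp)
  map_mul' g h := (atkinConjFun_eq_iff _ _).mpr (by
    simp only [Subgroup.coe_mul, map_mul]
    rw [← mul_assoc, atkinGL_mul_mapGL, mul_assoc, atkinGL_mul_mapGL, ← mul_assoc])

variable {N}

lemma atkinGL_mul (g : Gamma0 N) :
    atkinGL N * mapGL ℝ (g : SL(2, ℤ)) = mapGL ℝ (atkinConj N g : SL(2, ℤ)) * atkinGL N :=
  atkinGL_mul_mapGL g

lemma atkinConj_atkinConj (g : Gamma0 N) : atkinConj N (atkinConj N g) = g := by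
  obtain ⟨k, hk⟩ := natCast_dvd_lower g
  apply Subtype.ext
  ext i j
  fin_cases i <;> fin_cases j <;>
    simp [atkinConj, coe_atkinConjFun, hk, natCast_mul_ediv, neg_natCast_mul_ediv]

lemma trace_atkinConj (g : Gamma0 N) :
    ((atkinConj N g : SL(2, ℤ)) : Matrix (Fin 2) (Fin 2) ℤ).trace =
      ((g : SL(2, ℤ)) : Matrix (Fin 2) (Fin 2) ℤ).trace := by
  simp [atkinConj, coe_atkinConjFun, Matrix.trace_fin_two, add_comm]

lemma atkinConj_jConj (g : Gamma0 N) :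
    atkinConj N (jConjGamma0 N g) = jConjGamma0 N (atkinConj N g) := by
  obtain ⟨k, hk⟩ := natCast_dvd_lower g
  apply Subtype.ext
  ext i j
  fin_cases i <;> fin_cases j <;>
    simp [atkinConj, coe_atkinConjFun, hk, natCast_mul_ediv, neg_natCast_mul_ediv]

/-- Precomposition with the conjugation. -/
def atkinHom (N : ℕ) [NeZero N] (A : Type) [AddCommGroup A] :
    (Additive (Gamma0 N) →+ A) →+ (Additive (Gamma0 N) →+ A) where
  toFun φ := φ.comp (MonoidHom.toAdditive (atkinConj N))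
  map_zero' := rfl
  map_add' _ _ := rfl

lemma atkinHom_apply {A : Type} [AddCommGroup A] (φ : Additive (Gamma0 N) →+ A) (g : Gamma0 N) :
    atkinHom N A φ (Additive.ofMul g) = φ (Additive.ofMul (atkinConj N g)) := rfl

lemma atkinHom_atkinHom {A : Type} [AddCommGroup A] (φ : Additive (Gamma0 N) →+ A) :
    atkinHom N A (atkinHom N A φ) = φ :=
  AddMonoidHom.ext fun g => congrArg (fun x => φ (Additive.ofMul x)) (atkinConj_atkinConj g.toMul)

lemma atkinHom_comp {A B : Type} [AddCommGroup A] [AddCommGroup B] (f : A →+ B)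
    (φ : Additive (Gamma0 N) →+ A) : atkinHom N B (f.comp φ) = f.comp (atkinHom N A φ) := rfl

lemma atkinHom_charInvolution {A : Type} [AddCommGroup A] (φ : Additive (Gamma0 N) →+ A) :
    atkinHom N A (charInvolution N ℤ A φ) = charInvolution N ℤ A (atkinHom N A φ) :=
  AddMonoidHom.ext fun g =>
    congrArg (fun x => φ (Additive.ofMul x)) (atkinConj_jConj g.toMul).symm

lemma atkinHom_mem {A : Type} [AddCommGroup A] {φ : Additive (Gamma0 N) →+ A}
    (hφ : φ ∈ Gamma0.ellParHoms (Gamma0 N) A) :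
    atkinHom N A φ ∈ Gamma0.ellParHoms (Gamma0 N) A := fun g hg => by
  rw [atkinHom_apply]
  exact hφ _ (by rw [trace_atkinConj]; exact hg)

/-- The conjugation on `ellParHoms`. -/
def atkinEquiv (N : ℕ) [NeZero N] (A : Type) [AddCommGroup A] :
    Gamma0.ellParHoms (Gamma0 N) A ≃+ Gamma0.ellParHoms (Gamma0 N) A where
  toFun φ := ⟨atkinHom N A φ, atkinHom_mem φ.2⟩
  invFun φ := ⟨atkinHom N A φ, atkinHom_mem φ.2⟩
  left_inv _φ := Subtype.ext (atkinHom_atkinHom _)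
  right_inv _φ := Subtype.ext (atkinHom_atkinHom _)
  map_add' φ ψ := Subtype.ext (map_add (atkinHom N A) φ.1 ψ.1)

end Fermat.Agent.GaloisReps

end
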