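import Fermat.Agent.JacTorsion.Character

/-!
# The degeneracy maps on functions

`GL(2, ℝ)⁺` acts on meromorphic functions on `ℍ`; the two degeneracy maps of function fields are
the identity and `f ↦ f ∘ diag(d, 1)`.
-/

set_option autoImplicit false

noncomputable section

open UpperHalfPlane hiding I
open CongruenceSubgroup Fermat.Agent.ModFun Fermat.Agent.JacTorsion
open scoped MatrixGroups Manifold

namespace Fermat.Agent.GaloisReps

section ActGL

/-- `f ↦ f ∘ (M • ·)` on holomorphic functions. -/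
def actGLHom (M : GL (Fin 2) ℝ) (hM : 0 < M.det.val) : HolH →ₐ[ℂ] HolH where
  toFun f := ⟨fun τ => (f : ℍ → ℂ) (M • τ), f.2.comp (UpperHalfPlane.mdifferentiable_smul hM)⟩
  map_one' := rfl
  map_mul' _ _ := rfl
  map_zero' := rfl
  map_add' _ _ := rfl
  commutes' _ := rfl

lemma det_inv_pos {M : GL (Fin 2) ℝ} (hM : 0 < M.det.val) : 0 < M⁻¹.det.val := by
  rw [map_inv, Units.val_inv_eq_inv_val]; exact inv_pos.mpr hM

lemma det_mul_pos {M M' : GL (Fin 2) ℝ} (hM : 0 < M.det.val) (hM' : 0 < M'.det.val) :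
    0 < (M * M').det.val := by
  rw [map_mul, Units.val_mul]; exact mul_pos hM hM'

/-- `f ↦ f ∘ (M • ·)` on meromorphic functions. -/
def actGL (M : GL (Fin 2) ℝ) (hM : 0 < M.det.val) : MerH ≃ₐ[ℂ] MerH :=
  IsFractionRing.algEquivOfAlgEquiv
    (AlgEquiv.ofAlgHom (actGLHom M hM) (actGLHom M⁻¹ (det_inv_pos hM))
      (AlgHom.ext fun f => Subtype.ext (funext fun τ =>
        congrArg (f : ℍ → ℂ) (inv_smul_smul M τ)))
      (AlgHom.ext fun f => Subtype.ext (funext fun τ =>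
        congrArg (f : ℍ → ℂ) (smul_inv_smul M τ))))

lemma actGL_algebraMap (M : GL (Fin 2) ℝ) (hM : 0 < M.det.val) (f : HolH) :
    actGL M hM (algebraMap HolH MerH f) = algebraMap HolH MerH (actGLHom M hM f) :=
  IsFractionRing.algEquivOfAlgEquiv_algebraMap _ _

lemma actGL_congr {M M' : GL (Fin 2) ℝ} (h : M = M') (hM : 0 < M.det.val) (hM' : 0 < M'.det.val)
    (x : MerH) : actGL M hM x = actGL M' hM' x := by
  subst h; rfl

lemma actGL_mul {M M' : GL (Fin 2) ℝ} (hM : 0 < M.det.val) (hM' : 0 < M'.det.val) (x : MerH) :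
    actGL (M * M') (det_mul_pos hM hM') x = actGL M' hM' (actGL M hM x) := by
  obtain ⟨a, b, -, rfl⟩ := IsFractionRing.div_surjective HolH x
  have key : ∀ f : HolH, actGLHom (M * M') (det_mul_pos hM hM') f =
      actGLHom M' hM' (actGLHom M hM f) := fun f =>
    Subtype.ext (funext fun τ => congrArg (f : ℍ → ℂ) (mul_smul M M' τ))
  simp only [map_div₀, actGL_algebraMap, key]

lemma det_mapGL_pos (g : SL(2, ℤ)) :
    0 < (Matrix.SpecialLinearGroup.mapGL ℝ g : GL (Fin 2) ℝ).det.val := by simp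

lemma actGL_mapGL (g : SL(2, ℤ)) (x : MerH) :
    actGL (Matrix.SpecialLinearGroup.mapGL ℝ g) (det_mapGL_pos g) x = actMer g x := by
  obtain ⟨a, b, -, rfl⟩ := IsFractionRing.div_surjective HolH x
  simp only [map_div₀, actGL_algebraMap, actMer_algebraMap]
  rfl

end ActGL

section Diag

/-- `diag(d, 1)`. -/
def diagGL (d : ℕ) [NeZero d] : GL (Fin 2) ℝ :=
  Matrix.GeneralLinearGroup.mkOfDetNeZero !![(d : ℝ), 0; 0, 1] (by simp [NeZero.ne d])

lemma coe_diagGL (d : ℕ) [NeZero d] :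
    (diagGL d : Matrix (Fin 2) (Fin 2) ℝ) = !![(d : ℝ), 0; 0, 1] := rfl

lemma det_diagGL_pos (d : ℕ) [NeZero d] : 0 < (diagGL d).det.val := by
  rw [Matrix.GeneralLinearGroup.val_det_apply, coe_diagGL, Matrix.det_fin_two_of]
  simp [Nat.pos_of_ne_zero (NeZero.ne d)]

lemma diagGL_smul (d : ℕ) [NeZero d] (τ : ℍ) : diagGL d • τ = scaleH d τ := by
  apply UpperHalfPlane.ext
  rw [coe_smul_of_det_pos (det_diagGL_pos d), coe_scaleH]
  simp [num, denom, coe_diagGL]

end Diag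

section Fields

variable {N M : ℕ} [NeZero N] [NeZero M]

omit [NeZero N] [NeZero M] in
lemma mem_Hol_of_dvd (h : N ∣ M) {f : ℍ → ℂ} (hf : f ∈ Hol N) : f ∈ Hol M := by
  refine ⟨hf.1, fun g hg τ => hf.2.1 g ?_ τ, hf.2.2⟩
  rw [Gamma0_mem, ZMod.intCast_zmod_eq_zero_iff_dvd] at hg ⊢
  exact (Int.natCast_dvd_natCast.mpr h).trans hg

/-- An element of `FC N` with the same expansion as one of `FC M` is the same function. -/
lemma e1_eq_of_coe_eq (h : N ∣ M) (x : FC N) (y : FC M)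
    (hxy : (y : LaurentSeries ℂ) = (x : LaurentSeries ℂ)) : e1 M y = e1 N x := by
  obtain ⟨a, b, -, rfl⟩ := exists_div_eq x
  set a' : Hol M := ⟨a, mem_Hol_of_dvd h a.2⟩
  set b' : Hol M := ⟨b, mem_Hol_of_dvd h b.2⟩
  have hq : ∀ (f : Hol N), qExp M ⟨f, mem_Hol_of_dvd h f.2⟩ = qExp N f := fun f => rfl
  have hy : y = toFC M a' / toFC M b' := Subtype.ext (by
    rw [hxy]
    push_cast [coe_toFC]
    rw [hq, hq])
  rw [hy, map_div₀, map_div₀, e1_toFC, e1_toFC, e1_toFC, e1_toFC]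
  rfl

omit [NeZero M] in
lemma comp_scaleH_mem_CuspAlg (f : CuspAlg N) :
    (fun τ => (f : ℍ → ℂ) (scaleH N τ)) ∈ CuspAlg 1 := by
  obtain ⟨n, c, hc, -⟩ := exists_hasSum f
  have hq : ∀ τ : ℍ, qFun N (scaleH N τ) = qFun 1 τ := fun τ => by
    have hN : ((N : ℝ) : ℂ) ≠ 0 := by exact_mod_cast NeZero.ne N
    simp only [qFun, Function.Periodic.qParam, coe_scaleH]
    congr 1
    push_cast at hN ⊢
    field_simp
  refine mem_CuspAlg_of_hasSum (n := n) (c := c)
    (mdifferentiable_comp_affine N 0 1 (CuspAlg_le_HolH N f.2)) fun τ => ?_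
  have := hc (scaleH N τ)
  rwa [hq] at this

lemma comp_scaleH_mem_Hol {d : ℕ} [NeZero d] [NeZero (N * d)] {f : ℍ → ℂ} (hf : f ∈ Hol N) :
    (fun τ => f (scaleH d τ)) ∈ Hol (N * d) := by
  refine ⟨mdifferentiable_comp_affine d 0 1 hf.1, fun g hg τ => ?_, fun g => ?_⟩
  · rw [Gamma0_mem, ZMod.intCast_zmod_eq_zero_iff_dvd] at hg
    obtain ⟨k, hk⟩ := hg
    push_cast at hk
    have hdet : g 0 0 * g 1 1 - g 0 1 * g 1 0 = 1 := by
      have := g.det_coe; rw [Matrix.det_fin_two] at this; exact this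
    let δ : SL(2, ℤ) := ⟨!![g 0 0, (d : ℤ) * g 0 1; (N : ℤ) * k, g 1 1], by
      rw [Matrix.det_fin_two_of]; linear_combination hdet + g 0 1 * hk⟩
    show f (scaleH d (g • τ)) = _
    rw [scaleH_smul_of_hermite (d := d) (g := g) (δ := δ) (a := d) (b := 0) (e := 1)
      (show _ = g 0 0 * (d : ℤ) by ring) (show _ = g 0 0 * 0 + (d : ℤ) * g 0 1 * _ by push_cast; ring)
      (show _ = (N : ℤ) * k * (d : ℤ) by linear_combination hk)
      (show _ = (N : ℤ) * k * 0 + g 1 1 * _ by push_cast; ring), hf.2.1 δ ?_]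
    · rfl
    · rw [Gamma0_mem]
      show (((N : ℤ) * k : ℤ) : ZMod N) = 0
      simp
  · obtain ⟨δ, a, b, e, _, _, -, -, h⟩ := exists_scaleH_smul d g
    have : NeZero (e * N) := ⟨mul_ne_zero (NeZero.ne e) (NeZero.ne N)⟩
    have hN : ∀ τ : ℍ, scaleH N (affine a b (e * N) τ) = affine a b e τ := fun τ => by
      have hN : (N : ℂ) ≠ 0 := by exact_mod_cast NeZero.ne N
      apply UpperHalfPlane.ext
      rw [coe_scaleH, coe_affine, coe_affine]
      push_cast
      field_simp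
    have he : (fun τ => f (scaleH d (g • τ))) =
        fun τ => (fun τ => f (δ • scaleH N τ)) (affine a b (e * N) τ) := by
      funext τ
      show _ = f (δ • scaleH N (affine a b (e * N) τ))
      rw [h, hN]
    show MeroAtInfty fun τ => f (scaleH d (g • τ))
    rw [he]
    exact (comp_affine_mem a b (e * N)
      (comp_scaleH_mem_CuspAlg ⟨_, comp_SL_mem_CuspAlg hf δ⟩)).2.2

/-- The degeneracy map `q ↦ q^d` is `f ↦ f ∘ diag(d, 1)`. -/
lemma e1_eq_of_coe_eq_qExpand {d : ℕ} [NeZero d] [NeZero (N * d)] (x : FC N) (y : FC (N * d))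
    (hxy : (y : LaurentSeries ℂ) = ModularCurve.qExpand ℂ d (x : LaurentSeries ℂ)) :
    e1 (N * d) y = actGL (diagGL d) (det_diagGL_pos d) (e1 N x) := by
  obtain ⟨a, b, -, rfl⟩ := exists_div_eq x
  set a' : Hol (N * d) := ⟨_, comp_scaleH_mem_Hol (d := d) a.2⟩
  set b' : Hol (N * d) := ⟨_, comp_scaleH_mem_Hol (d := d) b.2⟩
  have hq : ∀ f : Hol N, qExp (N * d) ⟨_, comp_scaleH_mem_Hol (d := d) f.2⟩ =
      ModularCurve.qExpand ℂ d (qExp N f) := fun f => by
    show laurentExp 1 ⟨_, _⟩ = _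
    have h := laurentExp_compAffine d 0 1 (⟨f, Hol_le_CuspAlg_one f.2⟩ : CuspAlg 1)
    rw [affineRoot_zero, twist_one] at h
    exact h
  have hy : y = toFC (N * d) a' / toFC (N * d) b' := Subtype.ext (by
    rw [hxy]
    push_cast [coe_toFC]
    rw [map_div₀, hq, hq])
  rw [hy, map_div₀, map_div₀, map_div₀, e1_toFC, e1_toFC, e1_toFC, e1_toFC, actGL_algebraMap,
    actGL_algebraMap]
  have key : ∀ f : Hol N, holToHolH (N * d) ⟨_, comp_scaleH_mem_Hol (d := d) f.2⟩ =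
      actGLHom (diagGL d) (det_diagGL_pos d) (holToHolH N f) := fun f =>
    Subtype.ext (funext fun τ => by
      show (f : ℍ → ℂ) (scaleH d τ) = (f : ℍ → ℂ) (diagGL d • τ)
      rw [diagGL_smul])
  rw [key a, key b]

end Fields

end Fermat.Agent.GaloisReps

end
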