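import Fermat.Agent.GaloisReps.Attach
import Fermat.Agent.GaloisReps.Unramified
import Fermat.Agent.GaloisReps.JacobianModel
import Fermat.Agent.ModFun.Conj

/-!
# The models, given the Eichler–Shimura congruences
-/

set_option autoImplicit false

noncomputable section

open Polynomial ModularCurve

namespace Fermat.Agent.GaloisReps

theorem conjProperty (N : ℕ) [NeZero N] : ConjProperty N :=
  ModFun.exists_conj_torsionEquiv N

/-- The model of `J₀(N)` at `p`, given the congruences on torsion. -/
def modelOfCongruence {N p : ℕ} [NeZero N] [Fact p.Prime] (hES : CongruenceProperty N p) :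
    HeckeGaloisModel N p :=
  jacobianModel N p (conjProperty N) hES

theorem nonempty_models (hES : ∀ (N p : ℕ) [NeZero N] [Fact p.Prime], CongruenceProperty N p)
    (N p : ℕ) [NeZero N] [Fact p.Prime] : Nonempty (HeckeGaloisModel N p) :=
  ⟨modelOfCongruence (hES N p)⟩

end Fermat.Agent.GaloisReps

end
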