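import Fermat.Agent.GaloisReps.Results
import Fermat.Agent.GaloisReps.Flat
import Fermat.Agent.EichlerShimura.Specialization

/-!
# The congruences on torsion from injectivity of reduction
-/

set_option autoImplicit false

noncomputable section

open Fermat.Agent.EichlerShimura AlgebraicCurve ModularCurve

namespace Fermat.Agent.GaloisReps

/-- Eichler–Shimura on torsion, given injectivity of the reduction on prime-to-`ℓ` torsion. -/
theorem congruenceProperty_of_injective {N p : ℕ} [NeZero N] [Fact p.Prime]
    (hinj : InjectiveOnTorsion N) : CongruenceProperty N p := by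
  intro l hl hlNp A hA n x
  have hlN : ¬ l ∣ N := fun h => hlNp (h.mul_right p)
  have hm : ¬ l ∣ p ^ n := fun h => hlNp ((hl.dvd_of_dvd_pow h).mul_left N)
  have hx : (p ^ n) • (x : JZero N) = 0 := by
    have := x.2
    rwa [Pic0.mem_torsion, natCast_zsmul] at this
  exact ⟨fun s hs => inertia_smul_torsion hinj hl hlN hA hs hm hx,
    fun s hs => frobenius_smul_torsion hinj hl hlN hA hs hm hx⟩

variable (hinj : ∀ (N : ℕ) [NeZero N], InjectiveOnTorsion N)

include hinj

theorem congruenceProperty_all : ∀ (N p : ℕ) [NeZero N] [Fact p.Prime], CongruenceProperty N p :=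
  fun N _ _ _ => congruenceProperty_of_injective (hinj N)

theorem models_of_injective :
    ∀ (N p : ℕ) [NeZero N] [Fact p.Prime], Nonempty (HeckeGaloisModel N p) :=
  fun N p _ _ => nonempty_models (congruenceProperty_all hinj) N p

end Fermat.Agent.GaloisReps

end
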