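import Fermat.Agent.GaloisReps.Rep
import Fermat.Agent.GaloisReps.CoeffExt
import Fermat.Agent.GaloisReps.Characters
import Fermat.Agent.Arith.Density.Frobenius
import Fermat.Agent.EC.Torsion.Galois
import Fermat.Agent.Mazur.Small.Frey
import Fermat.Prelude.Def_CuspForm_HeckeGaloisRepDatum
import Fermat.Prelude.Def_FreyPackage_EigenformResidualAttachment

/-!
# Galois representations attached to eigenforms, given the models of `J₀(N)`
-/

set_option autoImplicit false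

noncomputable section

open Polynomial

namespace Fermat.Agent.GaloisReps

theorem frobeniusDensity : FrobeniusDensity := by
  intro L hL g S
  let L' : IntermediateField ℚ (AlgebraicClosure ℚ) :=
    IntermediateField.normalClosure ℚ L (AlgebraicClosure ℚ)
  have : Normal ℚ L' := normalClosure.normal ℚ L _
  obtain ⟨ℓ, hℓ, hℓS, A, hA, σ, hσ, ⟨i, hi⟩, -⟩ :=
    Arith.Density.exists_frobenius_pow (AlgEquiv.restrictNormalHom L') L' (fun σ hσ => by
      refine AlgEquiv.ext fun x => Subtype.ext ?_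
      rw [AlgEquiv.one_apply]
      exact (AlgEquiv.restrictNormal_commutes σ L' x).trans (hσ x x.2)) g S
  refine ⟨ℓ, hℓ, hℓS, A, hA, σ, hσ, i, fun x hx => ?_⟩
  have hx' : x ∈ L' := L.le_normalClosure hx
  rw [← map_pow] at hi
  have h := congrArg Subtype.val (AlgEquiv.congr_fun hi ⟨x, hx'⟩)
  exact (AlgEquiv.restrictNormal_commutes g L' ⟨x, hx'⟩).symm.trans
    (h.trans (AlgEquiv.restrictNormal_commutes (σ ^ i) L' ⟨x, hx'⟩))

/-- S30 from a model. -/
theorem exists_galoisRep_of_model (p : ℕ) [Fact p.Prime] (N : ℕ) [NeZero N]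
    (D : HeckeGaloisModel N p) (S : Finset ℕ) (hpS : p ∈ S)
    (O : Type) [CommRing O] [IsDomain O] [IsDiscreteValuationRing O]
    [IsAdicComplete (IsLocalRing.maximalIdeal O) O] [Finite (IsLocalRing.ResidueField O)]
    [CharZero O] (hp : (p : O) ∈ IsLocalRing.maximalIdeal O)
    (χ : CuspForm.heckeAlgebra N 2 (↑S : Set ℕ) →+* O) :
    ∃ (O' : Type) (_ : CommRing O') (_ : IsDomain O') (_ : IsDiscreteValuationRing O')
      (_ : IsAdicComplete (IsLocalRing.maximalIdeal O') O')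
      (_ : Finite (IsLocalRing.ResidueField O')) (_ : CharZero O')
      (_ : Algebra O O') (_ : Module.Finite O O') (_ : IsLocalHom (algebraMap O O')),
    Function.Injective (algebraMap O O') ∧
    ∃ ρ : GaloisRepAdic O',
      (∀ (ℓ : ℕ) (hℓ : ℓ.Prime) (hℓN : ¬ ℓ ∣ N) (hℓS : ℓ ∉ (↑S : Set ℕ)),
        ∀ A : ValuationSubring (AlgebraicClosure ℚ), A.LiesOverPrime ℓ →
          ∀ σ : AlgebraicClosure ℚ ≃ₐ[ℚ] AlgebraicClosure ℚ, A.IsFrobeniusAt σ ℓ →
            LinearMap.charpoly (ρ.ρ σ) =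
              X ^ 2 - C (algebraMap O O' (χ (CuspForm.heckeAlgebra.T hℓ hℓN hℓS))) * X
                + C ((ℓ : O'))) ∧
      (∀ q : ℕ, q.Prime → ¬ q ∣ N → q ≠ p → ρ.IsUnramifiedAt q) := by
  obtain ⟨θ, hθ⟩ := exists_extend_character (↑S : Set ℕ)
    ((algebraMap O (AlgebraicClosure (FractionRing O))).comp χ)
  have : Module.Finite ℤ (FullHecke N) := IntegralStructure.heckeAlgebra_finite N 2 ∅
  obtain ⟨O', i1, i2, i3, i4, i5, i6, i7, i8, i9, j, θ', hinj, hjinj, hcomm, hθ'⟩ :=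
    exists_coeffExt O θ
  have hpO : (p : O') ∈ IsLocalRing.maximalIdeal O' := by
    rw [← map_natCast (algebraMap O O') p]
    exact map_nonunit (algebraMap O O') _ hp
  obtain ⟨ι⟩ := exists_padicHom O' hpO
  refine ⟨O', i1, i2, i3, i4, i5, i6, i7, i8, i9, hinj, D.rep ι θ' hpO, ?_, ?_⟩
  · intro ℓ hℓ hℓN hℓS A hA σ hσ
    have hNp : ¬ ℓ ∣ N * p := fun h => (hℓ.dvd_mul.mp h).elim hℓN fun h' =>
      hℓS (by rw [(Nat.prime_dvd_prime_iff_eq hℓ Fact.out).mp h']; exact hpS)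
    have e : θ' (HeckeDuality.heckeOp N 2 ℓ hℓ) =
        algebraMap O O' (χ (CuspForm.heckeAlgebra.T hℓ hℓN hℓS)) := by
      refine hjinj ?_
      rw [← RingHom.comp_apply j θ', hθ', ← RingHom.comp_apply j, hcomm,
        ← toFull_T hℓ hℓN hℓS, hθ]
      rfl
    rw [← e]
    exact D.charpoly_eigenAction_frobenius ι θ' frobeniusDensity hpO hℓ hNp hA hσ
  · intro q hq hqN hqp
    exact D.rep_isUnramifiedAt ι θ' hpO hq fun h => (hq.dvd_mul.mp h).elim hqN fun h' =>
      hqp ((Nat.prime_dvd_prime_iff_eq hq Fact.out).mp h')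

/-- A residual representation attached to a character with values in an algebraically closed
field of characteristic `p`. -/
theorem exists_residual_of_model {p : ℕ} [Fact p.Prime] {N : ℕ} [NeZero N]
    (D : HeckeGaloisModel N p) {F : Type} [Field F] [IsAlgClosed F] [CharP F p]
    (θbar : FullHecke N →+* F) :
    ∃ ρ : ResidualGaloisRep F,
      (∀ ℓ (hℓ : ℓ.Prime), ¬ ℓ ∣ N * p →
        ∀ A : ValuationSubring (AlgebraicClosure ℚ), A.LiesOverPrime ℓ →
          ∀ σ : AbsGal, A.IsFrobeniusAt σ ℓ →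
            LinearMap.charpoly (ρ.ρ σ) =
              X ^ 2 - C (θbar (HeckeDuality.heckeOp N 2 ℓ hℓ)) * X + C ((ℓ : F))) ∧
      ∀ ℓ : ℕ, ℓ.Prime → ¬ ℓ ∣ N * p → ρ.IsUnramifiedAt ℓ := by
  have : Module.Finite ℤ (FullHecke N) := IntegralStructure.heckeAlgebra_finite N 2 ∅
  obtain ⟨O, i1, i2, i3, i4, i5, hpO, θ, ψ, hψ⟩ := exists_lift_char (A := FullHecke N) θbar
  obtain ⟨ι⟩ := exists_padicHom O hpO
  let ρO := D.rep ι θ hpO
  refine ⟨ρO.residual.baseChangeAlong ψ, fun ℓ hℓ hℓN A hA σ hσ => ?_, fun ℓ hℓ hℓN A hA σ hσ => ?_⟩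
  · let : Algebra (IsLocalRing.ResidueField O) F := ψ.toAlgebra
    show LinearMap.charpoly (((ρO.ρ σ).baseChange (IsLocalRing.ResidueField O)).baseChange F) = _
    rw [LinearMap.charpoly_baseChange, LinearMap.charpoly_baseChange,
      show LinearMap.charpoly (ρO.ρ σ) = _ from
        D.charpoly_eigenAction_frobenius ι θ frobeniusDensity hpO hℓ hℓN hA hσ]
    simp only [Polynomial.map_add, Polynomial.map_sub, Polynomial.map_mul, Polynomial.map_pow,
      Polynomial.map_X, Polynomial.map_C, map_natCast, Polynomial.map_natCast,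
      IsLocalRing.ResidueField.algebraMap_eq]
    rw [← hψ]
    rfl
  · let : Algebra (IsLocalRing.ResidueField O) F := ψ.toAlgebra
    show (((ρO.ρ σ).baseChange (IsLocalRing.ResidueField O)).baseChange F) = 1
    rw [show ρO.ρ σ = 1 from D.rep_isUnramifiedAt ι θ hpO hℓ hℓN A hA σ hσ,
      LinearMap.baseChange_one, LinearMap.baseChange_one]

/-- S29 from models. -/
theorem exists_residual_eigenform
    (hD : ∀ (N p : ℕ) [NeZero N] [Fact p.Prime], Nonempty (HeckeGaloisModel N p))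
    {N : ℕ} {g : CuspForm (CongruenceSubgroup.Gamma0 N) 2} (hg : g.IsNormalizedEigenform)
    {p : ℕ} (hp : p.Prime) {k : Type} [Field k] [CharP k p]
    (φ : integralClosure ℤ ℂ →+* k) :
    ∃ ρ : ResidualGaloisRep k, ρ.IsAttachedTo g φ ∧
      ∀ ℓ : ℕ, ℓ.Prime → ¬ ℓ ∣ N * p → ρ.IsUnramifiedAt ℓ := by
  have := Fact.mk hp
  rcases eq_or_ne N 0 with rfl | hN0
  · refine ⟨{ V := Fin 2 → k, finrank_eq := by simp, ρ := 1,
              factorsThroughFiniteLevel := ⟨⊥, inferInstance, fun _ _ => rfl⟩ }, ?_, ?_⟩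
    · intro ℓ _ h
      exact absurd (dvd_zero ℓ) h
    · intro ℓ _ h
      exact absurd (by simp) h
  · have : NeZero N := ⟨hN0⟩
    obtain ⟨D⟩ := hD N p
    obtain ⟨θ, hθ⟩ := exists_eigenform_character hg
    obtain ⟨F, i1, i2, i3, φ₀, j, hj⟩ := exists_algClosed_factor hp φ
    obtain ⟨ρ, hchar, hunr⟩ := exists_residual_of_model D (φ₀.comp θ)
    refine ⟨ρ.baseChangeAlong j, ?_, fun ℓ hℓ hℓN A hA σ hσ => ?_⟩
    · intro ℓ hℓ hℓN hℓp A hA σ hσ
      refine ⟨θ (HeckeDuality.heckeOp N 2 ℓ hℓ), hθ ℓ hℓ, ?_⟩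
      have hNp : ¬ ℓ ∣ N * p := fun h => (hℓ.dvd_mul.mp h).elim hℓN fun h' =>
        hℓp (by rw [(Nat.prime_dvd_prime_iff_eq hℓ hp).mp h']; exact CharP.cast_eq_zero k p)
      let : Algebra F k := j.toAlgebra
      show LinearMap.charpoly ((ρ.ρ σ).baseChange k) = _
      rw [LinearMap.charpoly_baseChange, hchar ℓ hℓ hNp A hA σ hσ]
      simp only [Polynomial.map_add, Polynomial.map_sub, Polynomial.map_mul, Polynomial.map_pow,
        Polynomial.map_X, Polynomial.map_C, map_natCast, Polynomial.map_natCast]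
      rw [← hj]
      rfl
    · let : Algebra F k := j.toAlgebra
      show (ρ.ρ σ).baseChange k = 1
      rw [hunr ℓ hℓ hℓN A hA σ hσ, LinearMap.baseChange_one]

/-- S42 from models. -/
theorem eigenformResidualAttachment
    (hD : ∀ (N p : ℕ) [NeZero N] [Fact p.Prime], Nonempty (HeckeGaloisModel N p))
    (P : FreyPackage) (M : ℕ) (hM : 0 < M) : P.EigenformResidualAttachmentAt M := by
  intro g hg m hm hpm
  have : NeZero M := ⟨hM.ne'⟩
  have := Fact.mk P.pp
  have := hm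
  let : Field (integralClosure ℤ ℂ ⧸ m) := Ideal.Quotient.field m
  have hch : CharP (integralClosure ℤ ℂ ⧸ m) P.p := by
    refine (CharP.charP_iff_prime_eq_zero P.pp).mpr ?_
    rw [← map_natCast (Ideal.Quotient.mk m), Ideal.Quotient.eq_zero_iff_mem]
    exact hpm
  obtain ⟨ρ, hatt, -⟩ := exists_residual_eigenform hD hg P.pp (Ideal.Quotient.mk m)
  obtain ⟨L₁, hL₁, h₁⟩ := ρ.factorsThroughFiniteLevel
  have : P.freyCurve.IsElliptic := Mazur.Small.frey_isElliptic P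
  obtain ⟨L₂, hL₂, h₂⟩ :=
    EC.Torsion.galoisFactorsThroughFiniteLevel_galoisRepModuleEnd P.freyCurve (n := P.p) P.pp.ne_zero
  let F : IntermediateField ℚ (AlgebraicClosure ℚ) :=
    IntermediateField.normalClosure ℚ (↥(L₁ ⊔ L₂)) (AlgebraicClosure ℚ)
  have : Normal ℚ F := normalClosure.normal ℚ _ _
  have : IsGalois ℚ F := ⟨⟩
  have : NumberField F := { to_finiteDimensional := inferInstance }
  let : Algebra (ZMod P.p) (integralClosure ℤ ℂ ⧸ m) := ZMod.algebra _ P.p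
  refine ⟨integralClosure ℤ ℂ ⧸ m, inferInstance, inferInstance, ρ.V, inferInstance, inferInstance,
    ρ.ρ, Ideal.Quotient.mk m, F, inferInstance, inferInstance, inferInstance, inferInstance,
    inferInstance, (Ideal.mk_ker (I := m)).ge, ρ.finrank_eq, ?_, ?_, ?_⟩
  · intro σ hσ
    have hfix : ∀ x ∈ L₁ ⊔ L₂, σ x = x := fun x hx => by
      have hx' : x ∈ F := (L₁ ⊔ L₂).le_normalClosure hx
      have h := congrArg Subtype.val (AlgEquiv.congr_fun (MonoidHom.mem_ker.mp hσ) ⟨x, hx'⟩)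
      exact (AlgEquiv.restrictNormal_commutes σ F ⟨x, hx'⟩).symm.trans h
    exact ⟨h₂ σ fun x hx => hfix x ((le_sup_right : L₂ ≤ L₁ ⊔ L₂) hx),
      h₁ σ fun x hx => hfix x ((le_sup_left : L₁ ≤ L₁ ⊔ L₂) hx)⟩
  · intro ℓ hℓ hℓM hℓp A hA τ hτ
    have hℓ0 : (ℓ : integralClosure ℤ ℂ ⧸ m) ≠ 0 := fun h =>
      hℓp ((Nat.prime_dvd_prime_iff_eq P.pp hℓ).mp ((CharP.cast_eq_zero_iff _ P.p ℓ).mp h)).symm
    obtain ⟨a, ha, hc⟩ := hatt ℓ hℓ hℓM hℓ0 A hA τ hτ
    refine ⟨a, ha, ?_⟩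
    classical
    let b := Module.finBasisOfFinrankEq _ ρ.V ρ.finrank_eq
    rw [LinearMap.trace_eq_matrix_trace _ b, Matrix.trace_eq_neg_charpoly_coeff,
      LinearMap.charpoly_toMatrix, hc]
    simp [Fintype.card_fin]
  · intro ℓ hℓ hℓM hℓp A hA τ hτ
    have hℓ0 : (ℓ : integralClosure ℤ ℂ ⧸ m) ≠ 0 := fun h =>
      hℓp ((Nat.prime_dvd_prime_iff_eq P.pp hℓ).mp ((CharP.cast_eq_zero_iff _ P.p ℓ).mp h)).symm
    obtain ⟨a, ha, hc⟩ := hatt ℓ hℓ hℓM hℓ0 A hA τ hτ
    rw [LinearMap.det_eq_sign_charpoly_coeff, hc, ρ.finrank_eq]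
    simp

end Fermat.Agent.GaloisReps

end
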