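import Fermat.Agent.GaloisReps.Attach
import Fermat.Prelude.Def_GaloisRep_LocalConditions
import Fermat.Agent.Arith.TraceSpan
import Mathlib.RingTheory.Filtration

/-!
# Matching a Hecke–Galois datum with the model of `J₀(N)` at a finite level

Every Galois element is matched modulo `p ^ n` by a Frobenius power: the model sees a quadratic
equation with coefficient a Hecke operator `t`, and the trace in the datum is congruent to `π t`.
Moreover `π` sees congruences of matrices of the model up to a bounded shift.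
-/

set_option autoImplicit false

noncomputable section

open Polynomial Module

namespace Fermat.Agent.GaloisReps

/-- `t i = α^i + β^i` for the roots `α, β` of `X² - t X + l`. -/
def powerTrace {R : Type*} [Ring R] (t l : R) : ℕ → R
  | 0 => 2
  | 1 => t
  | i + 2 => t * powerTrace t l (i + 1) - l * powerTrace t l i

lemma map_powerTrace {R S : Type*} [Ring R] [Ring S] (f : R →+* S) (t l : R) :
    ∀ i : ℕ, f (powerTrace t l i) = powerTrace (f t) (f l) i
  | 0 => map_ofNat f 2
  | 1 => rfl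
  | i + 2 => by
    simp only [powerTrace, map_sub, map_mul, map_powerTrace f t l (i + 1), map_powerTrace f t l i]

/-- A root of `X² - t X + ℓ` has `i`-th power a root of `X² - tᵢ X + ℓ^i`. -/
lemma pow_quadratic {R : Type*} [Ring R] {G t : R} (hc : Commute t G) (ℓ : ℕ)
    (h : G * G - t * G + (ℓ : R) = 0) (i : ℕ) :
    G ^ i * G ^ i - powerTrace t (ℓ : R) i * G ^ i + ((ℓ ^ i : ℕ) : R) = 0 := by
  set G' := t - G with hG'
  have hGG' : G * G' = (ℓ : R) := by
    rw [hG', mul_sub, ← hc.eq]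
    rw [sub_add_eq_add_sub, sub_eq_zero] at h
    rw [← h, add_sub_cancel_left]
  have hcomm : Commute G G' := (hc.symm).sub_right (Commute.refl G)
  have hrec : ∀ i : ℕ, G ^ i + G' ^ i = powerTrace t (ℓ : R) i := by
    intro i
    induction i using Nat.twoStepInduction with
    | zero => simp only [pow_zero, powerTrace]; exact one_add_one_eq_two
    | one => simp [powerTrace, hG']
    | more i h1 h2 =>
      rw [powerTrace, ← h1, ← h2, ← hGG', show t = G + G' by rw [hG']; abel]
      have e1 : G' * G ^ (i + 1) = G * G' * G ^ i := by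
        rw [pow_succ', ← mul_assoc, hcomm.symm.eq]
      have e2 : G * G' ^ (i + 1) = G * G' * G' ^ i := by
        rw [pow_succ', ← mul_assoc]
      rw [add_mul, mul_add, mul_add, e1, e2, mul_add, ← pow_succ', ← pow_succ']
      abel
  rw [← hrec, add_mul, sub_add_eq_sub_sub, sub_self, zero_sub, Nat.cast_pow, ← hGG',
    hcomm.mul_pow, (hcomm.pow_pow i i).eq, neg_add_cancel]

variable {p : ℕ} [Fact p.Prime] {N : ℕ} [NeZero N] {S : Finset ℕ}
  {O : Type} [CommRing O] [IsDomain O] [IsDiscreteValuationRing O]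
  [IsAdicComplete (IsLocalRing.maximalIdeal O) O]
  {θ : CuspForm.heckeAlgebra N 2 (↑S : Set ℕ) →+* IsLocalRing.ResidueField O}
  {T : Type} [CommRing T] [IsLocalRing T] [IsNoetherianRing T]
  [IsAdicComplete (IsLocalRing.maximalIdeal T) T] [Algebra O T] [IsLocalHom (algebraMap O T)]
  [Module.Finite O T] [Module.Free O T]

lemma trace_mem_of_forall_mem {A : Type} [CommRing A] {V : Type} [AddCommGroup V] [Module A V]
    [Module.Free A V] [Module.Finite A V] (I : Ideal A) (Y : Module.End A V)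
    (h : ∀ v, Y v ∈ I • (⊤ : Submodule A V)) : LinearMap.trace A V Y ∈ I := by
  classical
  let b := Module.Free.chooseBasis A V
  rw [LinearMap.trace_eq_matrix_trace A b]
  refine Ideal.sum_mem _ fun i _ => ?_
  rw [Matrix.diag_apply, LinearMap.toMatrix_apply]
  refine Submodule.smul_induction_on (p := fun x => b.repr x i ∈ I) (h (b i)) ?_ ?_
  · intro a ha v _
    rw [map_smul, Finsupp.smul_apply, smul_eq_mul]
    exact I.mul_mem_right _ ha
  · intro x y hx hy
    rw [map_add, Finsupp.add_apply]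
    exact I.add_mem hx hy

/-- The trace of a power of an endomorphism of a free module of rank two. -/
lemma trace_pow_of_charpoly {A : Type} [CommRing A] [Nontrivial A] {V : Type} [AddCommGroup V]
    [Module A V] [Module.Free A V] [Module.Finite A V] (hV : finrank A V = 2) (M : Module.End A V)
    (a : A) (ℓ : ℕ) (h : LinearMap.charpoly M = X ^ 2 - C a * X + C (ℓ : A)) (i : ℕ) :
    LinearMap.trace A V (M ^ i) = powerTrace a (ℓ : A) i := by
  classical
  let b := Module.finBasisOfFinrankEq A V hV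
  have htr : LinearMap.trace A V M = a := by
    rw [LinearMap.trace_eq_matrix_trace A b, Matrix.trace_eq_neg_charpoly_coeff,
      LinearMap.charpoly_toMatrix, h]
    simp [Fintype.card_fin]
  have hq : M * M = a • M - (ℓ : A) • 1 := by
    have := LinearMap.aeval_self_charpoly M
    rw [h] at this
    simp only [map_add, map_sub, map_mul, aeval_X, aeval_C,
      Algebra.algebraMap_eq_smul_one, smul_mul_assoc, one_mul, sq] at this
    rw [sub_add_eq_add_sub, sub_eq_zero] at this
    rw [eq_sub_iff_add_eq]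
    exact this
  induction i using Nat.twoStepInduction with
  | zero =>
    rw [pow_zero, LinearMap.trace_one, hV]
    simp [powerTrace]
  | one => rw [pow_one, htr]; rfl
  | more i h1 h2 =>
    rw [show M ^ (i + 2) = (M * M) * M ^ i by rw [← pow_two, ← pow_add, add_comm], hq, sub_mul,
      smul_mul_assoc, smul_mul_assoc, one_mul, ← pow_succ', map_sub, map_smul, map_smul, h1, h2,
      powerTrace, smul_eq_mul, smul_eq_mul]

/-- Frobenius elements away from the level and `S` have the expected characteristic polynomial. -/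
def FrobCharpoly (ρ : GaloisRepAdic T)
    (π : CuspForm.heckeAlgebra N 2 (↑S : Set ℕ) →+* T) : Prop :=
  ∀ (ℓ : ℕ) (hℓ : ℓ.Prime) (hℓN : ¬ ℓ ∣ N) (hℓS : ℓ ∉ (↑S : Set ℕ)),
    ∀ A : ValuationSubring (AlgebraicClosure ℚ), A.LiesOverPrime ℓ →
      ∀ σ : AbsGal, A.IsFrobeniusAt σ ℓ →
        LinearMap.charpoly (ρ.ρ σ) =
          X ^ 2 - C (π (CuspForm.heckeAlgebra.T hℓ hℓN hℓS)) * X + C (ℓ : T)

omit [IsNoetherianRing T] [IsAdicComplete (IsLocalRing.maximalIdeal T) T] [Algebra O T]
  [IsLocalHom (algebraMap O T)] [Module.Finite O T] [Module.Free O T] in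
/-- The matching of a Galois element at level `n`. -/
theorem exists_matching_of (D : HeckeGaloisModel N p) (ρ : GaloisRepAdic T)
    (π : CuspForm.heckeAlgebra N 2 (↑S : Set ℕ) →+* T) (hfrob : FrobCharpoly ρ π)
    (n : ℕ) (ζ : AlgebraicClosure ℚ) (hζ : ζ ^ (p ^ n) = 1) (g : AbsGal) :
    ∃ (t : CuspForm.heckeAlgebra N 2 (↑S : Set ℕ)) (a : ℕ),
      ((D.gal g * D.gal g - matIn D.hecke ℤ_[p] (toFull (↑S : Set ℕ) t) * D.gal g +
          (a : Matrix _ _ ℤ_[p])).map (PadicInt.toZModPow n) = 0) ∧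
      LinearMap.trace T ρ.V (ρ.ρ g) - π t ∈ IsLocalRing.maximalIdeal T ^ n ∧
      g ζ = ζ ^ a := by
  classical
  let incl := toFull (N := N) (↑S : Set ℕ)
  obtain ⟨L₁, hL₁, h₁⟩ := D.gal_continuous n
  obtain ⟨L₂, hL₂, h₂⟩ := ρ.isAdicContinuous n
  have : FiniteDimensional ℚ (IntermediateField.adjoin ℚ {ζ}) :=
    IntermediateField.adjoin.finiteDimensional (Algebra.IsIntegral.isIntegral ζ)
  obtain ⟨ℓ, hℓ, hℓS, B, hB, σ, hσ, i, hi⟩ :=
    frobeniusDensity (L₁ ⊔ L₂ ⊔ IntermediateField.adjoin ℚ {ζ}) inferInstance g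
      (S ∪ (N * p).primeFactors)
  rw [Finset.mem_union, not_or] at hℓS
  have hℓNp : ¬ ℓ ∣ N * p := fun h => hℓS.2 (Nat.mem_primeFactors.mpr
    ⟨hℓ, h, mul_ne_zero (NeZero.ne N) (Fact.out : p.Prime).ne_zero⟩)
  have hℓN : ¬ ℓ ∣ N := fun h => hℓNp (dvd_mul_of_dvd_left h p)
  have hℓS' : ℓ ∉ (↑S : Set ℕ) := fun h => hℓS.1 (Finset.mem_coe.mp h)
  have hfix := inv_mul_fixes (fun x hx => (hi x hx).symm)
  set Tl : CuspForm.heckeAlgebra N 2 (↑S : Set ℕ) := CuspForm.heckeAlgebra.T hℓ hℓN hℓS' with hTl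
  refine ⟨powerTrace Tl (ℓ : CuspForm.heckeAlgebra N 2 (↑S : Set ℕ)) i, ℓ ^ i, ?_, ?_, ?_⟩
  · have hcongr : (D.gal g).map (PadicInt.toZModPow n) =
        (D.gal (σ ^ i)).map (PadicInt.toZModPow n) := by
      have := h₁ _ fun x hx => hfix x ((le_sup_left : L₁ ≤ L₁ ⊔ L₂).trans le_sup_left hx)
      rw [← mul_inv_cancel_left (σ ^ i) g, map_mul, Matrix.map_mul, this, mul_one]
    have hq2 : D.gal σ * D.gal σ - matIn D.hecke ℤ_[p] (incl Tl) * D.gal σ +
        (ℓ : Matrix (Fin D.d) (Fin D.d) ℤ_[p]) = 0 := by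
      have := D.gal_frobenius ℓ hℓ hℓNp B hB σ hσ
      rwa [← toFull_T hℓ hℓN hℓS', Nat.cast_smul_eq_nsmul, nsmul_eq_mul, mul_one] at this
    have h3 := pow_quadratic (D.gal_comm σ _).symm ℓ hq2 i
    have e : matIn D.hecke ℤ_[p] (incl (powerTrace Tl (ℓ : CuspForm.heckeAlgebra N 2 _) i)) =
        powerTrace (matIn D.hecke ℤ_[p] (incl Tl)) (ℓ : Matrix _ _ ℤ_[p]) i := by
      rw [← map_natCast ((matIn D.hecke ℤ_[p]).comp incl.toRingHom) ℓ]
      exact map_powerTrace ((matIn D.hecke ℤ_[p]).comp incl.toRingHom) Tl _ i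
    rw [e]
    have h4 := congrArg (PadicInt.toZModPow n).mapMatrix h3
    simp only [map_add, map_sub, map_mul, map_zero, map_natCast, RingHom.mapMatrix_apply,
      ← map_pow D.gal] at h4
    rw [← hcongr] at h4
    simp only [← RingHom.mapMatrix_apply, map_add, map_sub, map_mul, map_natCast] at h4 ⊢
    exact h4
  · have htr : LinearMap.trace T ρ.V (ρ.ρ (σ ^ i)) =
        π (powerTrace Tl (ℓ : CuspForm.heckeAlgebra N 2 _) i) := by
      rw [map_powerTrace, map_natCast, map_pow]
      exact trace_pow_of_charpoly ρ.finrank_eq _ _ ℓ (hfrob ℓ hℓ hℓN hℓS' B hB σ hσ) i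
    rw [← htr, ← map_sub]
    refine trace_mem_of_forall_mem _ _ fun v => ?_
    have hu := h₂ _ (fun x hx => hfix x ((le_sup_right : L₂ ≤ L₁ ⊔ L₂).trans le_sup_left hx)) v
    have hmap : ∀ x ∈ IsLocalRing.maximalIdeal T ^ n • (⊤ : Submodule T ρ.V),
        ρ.ρ (σ ^ i) x ∈ IsLocalRing.maximalIdeal T ^ n • (⊤ : Submodule T ρ.V) :=
      fun x hx => Submodule.smul_induction_on (p := fun y => ρ.ρ (σ ^ i) y ∈ _) hx
        (fun a ha w _ => by rw [map_smul]; exact Submodule.smul_mem_smul ha Submodule.mem_top)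
        (fun y z hy hz => by rw [map_add]; exact add_mem hy hz)
    have := hmap _ hu
    rw [map_sub, ← Module.End.mul_apply, ← map_mul, mul_inv_cancel_left] at this
    exact this
  · rw [hi ζ (le_sup_right (a := L₁ ⊔ L₂) (IntermediateField.mem_adjoin_simple_self ℚ ζ))]
    refine pow_apply_root (frobenius_apply_root hB hℓ hσ hζ fun hdvd => hℓNp ?_) i
    exact dvd_mul_of_dvd_right (hℓ.dvd_of_dvd_pow hdvd) N

/-- The matching of a Galois element in a datum at level `n`. -/
theorem exists_matching (D : HeckeGaloisModel N p)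
    (H : CuspForm.HeckeGaloisRepDatum N (↑S : Set ℕ) O θ T)
    (n : ℕ) (ζ : AlgebraicClosure ℚ) (hζ : ζ ^ (p ^ n) = 1) (g : AbsGal) :
    ∃ (t : CuspForm.heckeAlgebra N 2 (↑S : Set ℕ)) (a : ℕ),
      ((D.gal g * D.gal g - matIn D.hecke ℤ_[p] (toFull (↑S : Set ℕ) t) * D.gal g +
          (a : Matrix _ _ ℤ_[p])).map (PadicInt.toZModPow n) = 0) ∧
      LinearMap.trace T H.ρ.V (H.ρ.ρ g) - H.π t ∈ IsLocalRing.maximalIdeal T ^ n ∧
      g ζ = ζ ^ a :=
  exists_matching_of D H.ρ H.π H.charpoly_frob n ζ hζ g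

omit [IsNoetherianRing T] [IsAdicComplete (IsLocalRing.maximalIdeal T) T] [Algebra O T]
  [IsLocalHom (algebraMap O T)] [Module.Finite O T] [Module.Free O T] in
/-- `π` sees congruences of matrices of the model up to a bounded shift. -/
theorem exists_saturation_of (D : HeckeGaloisModel N p)
    (hpT : (p : T) ∈ IsLocalRing.maximalIdeal T)
    (π : CuspForm.heckeAlgebra N 2 (↑S : Set ℕ) →+* T) :
    ∃ k : ℕ, ∀ (n : ℕ) (d : CuspForm.heckeAlgebra N 2 (↑S : Set ℕ)),
      (PadicInt.toZModPow (n + k)).mapMatrix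
          (matIn D.hecke ℤ_[p] (toFull (↑S : Set ℕ) d)) = 0 →
        π d ∈ IsLocalRing.maximalIdeal T ^ n := by
  classical
  have : Module.Finite ℤ (CuspForm.heckeAlgebra N 2 (↑S : Set ℕ)) :=
    IntegralStructure.heckeAlgebra_finite N 2 _
  let φ : CuspForm.heckeAlgebra N 2 (↑S : Set ℕ) →ₗ[ℤ] Matrix (Fin D.d) (Fin D.d) ℤ :=
    (D.hecke.comp (toFull (↑S : Set ℕ)).toRingHom).toAddMonoidHom.toIntLinearMap
  obtain ⟨k, hk⟩ := Ideal.exists_pow_inf_eq_pow_smul (Ideal.span {(p : ℤ)}) (LinearMap.range φ)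
  refine ⟨k, fun n d hd0 => ?_⟩
  have hd : ∀ i j, ((p ^ (n + k) : ℕ) : ℤ) ∣ φ d i j := fun i j => by
    have := congrFun (congrFun hd0 i) j
    simp only [RingHom.mapMatrix_apply, matIn_apply, Matrix.map_apply, eq_intCast,
      map_intCast, Matrix.zero_apply] at this
    exact (ZMod.intCast_zmod_eq_zero_iff_dvd _ _).mp this
  choose M hM using hd
  have hmem : φ d ∈ Ideal.span {(p : ℤ)} ^ (n + k) • ⊤ ⊓ LinearMap.range φ := by
    refine ⟨?_, ⟨d, rfl⟩⟩
    have : φ d = ((p : ℤ) ^ (n + k)) • Matrix.of M := by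
      ext i j
      rw [hM i j, Matrix.smul_apply, Matrix.of_apply, smul_eq_mul, Nat.cast_pow]
    rw [this, Ideal.span_singleton_pow]
    exact Submodule.smul_mem_smul (Ideal.mem_span_singleton_self _) Submodule.mem_top
  rw [hk _ (Nat.le_add_left k n), Nat.add_sub_cancel] at hmem
  have h2 := (Submodule.smul_mono (le_refl (Ideal.span {(p : ℤ)} ^ n)) inf_le_right) hmem
  rw [Ideal.span_singleton_pow, Submodule.ideal_span_singleton_smul,
    Submodule.mem_smul_pointwise_iff_exists] at h2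
  obtain ⟨_, ⟨e, rfl⟩, he⟩ := h2
  have hde : d = ((p : ℤ) ^ n) • e := by
    refine (D.hecke_injective.comp (toFull_injective _)) ?_
    show φ d = φ _
    rw [map_smul, he]
  rw [hde, map_zsmul, zsmul_eq_mul]
  push_cast
  exact Ideal.mul_mem_right _ _ (Ideal.pow_mem_pow hpT n)

/-- Saturation for a datum. -/
theorem exists_saturation (D : HeckeGaloisModel N p)
    (hpO : (p : O) ∈ IsLocalRing.maximalIdeal O)
    (H : CuspForm.HeckeGaloisRepDatum N (↑S : Set ℕ) O θ T) :
    ∃ k : ℕ, ∀ (n : ℕ) (d : CuspForm.heckeAlgebra N 2 (↑S : Set ℕ)),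
      (PadicInt.toZModPow (n + k)).mapMatrix
          (matIn D.hecke ℤ_[p] (toFull (↑S : Set ℕ) d)) = 0 →
        H.π d ∈ IsLocalRing.maximalIdeal T ^ n := by
  refine exists_saturation_of D ?_ H.π
  rw [← map_natCast (algebraMap O T) p]
  exact map_nonunit (algebraMap O T) _ hpO

end Fermat.Agent.GaloisReps

end
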