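import Fermat.Agent.GaloisReps.Model
import Fermat.Agent.Arith.RootsOfUnity
import Mathlib.FieldTheory.IsAlgClosed.Basic

/-!
# Finite levels of the absolute Galois group of `ℚ`
-/

set_option autoImplicit false

noncomputable section

namespace Fermat.Agent.GaloisReps

/-- Frobenius density in the form used here: at every finite level, every Galois element generates
the same cyclic group as a Frobenius element at a prime outside a given finite set. -/
def FrobeniusDensity : Prop :=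
  ∀ (L : IntermediateField ℚ (AlgebraicClosure ℚ)), FiniteDimensional ℚ L →
    ∀ (g : AbsGal) (S : Finset ℕ), ∃ ℓ : ℕ, ℓ.Prime ∧ ℓ ∉ S ∧
      ∃ A : ValuationSubring (AlgebraicClosure ℚ), A.LiesOverPrime ℓ ∧
        ∃ σ : AbsGal, A.IsFrobeniusAt σ ℓ ∧ ∃ i : ℕ, ∀ x ∈ L, g x = (σ ^ i) x

lemma inv_mul_fixes {L : IntermediateField ℚ (AlgebraicClosure ℚ)} {g h : AbsGal}
    (hgh : ∀ x ∈ L, g x = h x) : ∀ x ∈ L, (g⁻¹ * h) x = x := by
  intro x hx
  rw [AlgEquiv.mul_apply, ← hgh x hx, ← AlgEquiv.mul_apply, inv_mul_cancel, AlgEquiv.one_apply]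

lemma exists_primitiveRoot (n : ℕ) [NeZero n] :
    ∃ ζ : AlgebraicClosure ℚ, IsPrimitiveRoot ζ n :=
  HasEnoughRootsOfUnity.exists_primitiveRoot _ n

lemma frobenius_apply_root {ℓ m : ℕ} {A : ValuationSubring (AlgebraicClosure ℚ)}
    (hA : A.LiesOverPrime ℓ) (hℓ : ℓ.Prime) {σ : AbsGal} (hσ : A.IsFrobeniusAt σ ℓ)
    {ζ : AlgebraicClosure ℚ} (hζ : ζ ^ m = 1) (hm : ¬ ℓ ∣ m) : σ ζ = ζ ^ ℓ :=
  Arith.frobenius_root hA hℓ hσ hζ hm

lemma pow_apply_root {σ : AbsGal} {ζ : AlgebraicClosure ℚ} {a : ℕ} (h : σ ζ = ζ ^ a) (i : ℕ) :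
    (σ ^ i) ζ = ζ ^ (a ^ i) := by
  induction i with
  | zero => simp
  | succ i ih =>
    rw [pow_succ σ i, AlgEquiv.mul_apply, h, map_pow, ih, ← pow_mul, pow_succ]

end Fermat.Agent.GaloisReps

end
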