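import Fermat.Prelude.Def_GaloisRep_Adic
import Fermat.Prelude.Def_CuspForm_HeckeAlgebra
import Fermat.Agent.HeckeDuality.Eigenform
import Mathlib.NumberTheory.Padics.RingHoms

/-!
# The interface between the Jacobian of `X₀(N)` and Galois representations

`HeckeGaloisModel N p` records what the theory of `J₀(N)` must provide in order to attach
`p`-adic Galois representations to Hecke eigensystems: a lattice `ℤ^d` (in practice the parabolic
homomorphisms `Γ₀(N) → ℤ`) with an action of the weight two Hecke algebra and an involution, and a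
continuous commuting Galois action on its `p`-adic completion (in practice the Tate module).
-/

set_option autoImplicit false

noncomputable section

namespace Fermat.Agent.GaloisReps

/-- The absolute Galois group of `ℚ`. -/
abbrev AbsGal : Type := AlgebraicClosure ℚ ≃ₐ[ℚ] AlgebraicClosure ℚ

section Eigen

variable {A : Type*} [CommRing A] {d : ℕ} (h : A →+* Matrix (Fin d) (Fin d) ℤ)

/-- The integral matrices of a representation, read in a ring `R`. -/
def matIn (R : Type*) [CommRing R] : A →+* Matrix (Fin d) (Fin d) R :=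
  (Int.castRingHom R).mapMatrix.comp h

@[simp] lemma matIn_apply (R : Type*) [CommRing R] (a : A) :
    matIn h R a = (h a).map (Int.castRingHom R) := rfl

/-- The common eigenspace for a system of eigenvalues. -/
def eigenspace {R : Type*} [CommRing R] (θ : A →+* R) : Submodule R (Fin d → R) :=
  ⨅ a : A, LinearMap.ker ((matIn h R a).mulVecLin - θ a • LinearMap.id)

lemma mem_eigenspace {R : Type*} [CommRing R] (θ : A →+* R) (v : Fin d → R) :
    v ∈ eigenspace h θ ↔ ∀ a, (matIn h R a).mulVec v = θ a • v := by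
  simp only [eigenspace, Submodule.mem_iInf, LinearMap.mem_ker, LinearMap.sub_apply,
    Matrix.mulVecLin_apply, LinearMap.smul_apply, LinearMap.id_apply, sub_eq_zero]

end Eigen

/-- The weight two Hecke algebra of `Γ₀(N)` generated by all `T_ℓ` and `U_q`. -/
abbrev FullHecke (N : ℕ) [NeZero N] : Type := CuspForm.heckeAlgebra N 2 ∅

/-- What `J₀(N)` provides at the prime `p`. -/
structure HeckeGaloisModel (N p : ℕ) [NeZero N] [Fact p.Prime] where
  /-- The rank. -/
  d : ℕ
  /-- The Hecke action on the lattice. -/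
  hecke : FullHecke N →+* Matrix (Fin d) (Fin d) ℤ
  hecke_injective : Function.Injective hecke
  /-- The involution induced by complex conjugation. -/
  inv : Matrix (Fin d) (Fin d) ℤ
  eigenspace_finrank : ∀ θ : FullHecke N →+* ℂ, Module.finrank ℂ (eigenspace hecke θ) = 2
  inv_not_scalar : ∀ (θ : FullHecke N →+* ℂ) (c : ℂ),
    ∃ v ∈ eigenspace hecke θ, (inv.map (Int.castRingHom ℂ)).mulVec v ≠ c • v
  /-- The Galois action on the completed lattice. -/
  gal : AbsGal →* Matrix (Fin d) (Fin d) ℤ_[p]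
  gal_comm : ∀ (σ : AbsGal) (t : FullHecke N),
    gal σ * matIn hecke ℤ_[p] t = matIn hecke ℤ_[p] t * gal σ
  gal_continuous : ∀ n : ℕ, ∃ L : IntermediateField ℚ (AlgebraicClosure ℚ),
    FiniteDimensional ℚ L ∧ ∀ σ : AbsGal, (∀ x ∈ L, σ x = x) →
      (gal σ).map (PadicInt.toZModPow n) = 1
  gal_unramified : ∀ ℓ : ℕ, ℓ.Prime → ¬ ℓ ∣ N * p →
    ∀ A : ValuationSubring (AlgebraicClosure ℚ), A.LiesOverPrime ℓ →
      ∀ σ ∈ A.inertiaSubgroupIn ℚ, gal σ = 1
  gal_frobenius : ∀ (ℓ : ℕ) (hℓ : ℓ.Prime), ¬ ℓ ∣ N * p →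
    ∀ A : ValuationSubring (AlgebraicClosure ℚ), A.LiesOverPrime ℓ →
      ∀ σ : AbsGal, A.IsFrobeniusAt σ ℓ →
        gal σ * gal σ - matIn hecke ℤ_[p] (HeckeDuality.heckeOp N 2 ℓ hℓ) * gal σ
          + (ℓ : ℤ_[p]) • (1 : Matrix (Fin d) (Fin d) ℤ_[p]) = 0
  exists_conj : ∃ c : AbsGal, c * c = 1 ∧ gal c = inv.map (Int.castRingHom ℤ_[p])

end Fermat.Agent.GaloisReps

end
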