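import Fermat.Agent.GaloisReps.Matching
import Mathlib.Algebra.MonoidAlgebra.Basic

/-!
# Relations among Galois elements on the model hold in every datum

If `∑ c g = 0` on the model modulo a high power of `p`, then `∑ c ρ(g)` is divisible by a given
power of the maximal ideal. The matching operators give `∑ c t_g = ∑ c χ(g) g⁻¹` on the model; this
central element kills all commutators of Galois elements, and some commutator has unit trace against
a Galois element in the datum, whose residual representation is absolutely irreducible.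
-/

set_option autoImplicit false

noncomputable section

open Module
open scoped MonoidAlgebra

namespace Fermat.Agent.GaloisReps

section Matrices

variable {T : Type} [CommRing T] [IsLocalRing T] (ρ : GaloisRepAdic T)
  (habs : ρ.residual.IsAbsolutelyIrreducible)

include habs in
/-- If all `tr (ρ σ ∘ X)` lie in an ideal, `X` is divisible by it. -/
theorem mem_smul_of_forall_trace_comp (I : Ideal T) (X : Module.End T ρ.V)
    (h : ∀ σ, LinearMap.trace T ρ.V (ρ.ρ σ * X) ∈ I) (v : ρ.V) :
    X v ∈ I • (⊤ : Submodule T ρ.V) := by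
  let b := Module.finBasisOfFinrankEq T ρ.V ρ.finrank_eq
  set M := LinearMap.toMatrixAlgEquiv b X with hM
  have h1 : ∀ Y : Matrix (Fin 2) (Fin 2) T, Matrix.trace (Y * M) ∈ I := by
    intro Y
    have hY : Y ∈ Submodule.span T (Set.range fun σ => Fermat.Agent.Deform.matOf ρ b σ) := by
      rw [Arith.span_matOf_eq_top ρ habs b]; exact Submodule.mem_top
    induction hY using Submodule.span_induction with
    | mem Y hY =>
      obtain ⟨σ, rfl⟩ := hY
      have := h σ
      rwa [LinearMap.trace_eq_matrix_trace T b, LinearMap.toMatrix_mul] at this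
    | zero => rw [zero_mul, Matrix.trace_zero]; exact I.zero_mem
    | add x y _ _ hx hy => rw [add_mul, Matrix.trace_add]; exact I.add_mem hx hy
    | smul c x _ hx => rw [smul_mul_assoc, Matrix.trace_smul]; exact I.mul_mem_left _ hx
  have h2 : ∀ i j, M i j ∈ I := by
    intro i j
    have := h1 (Matrix.single j i 1)
    rw [Matrix.trace_fin_two] at this
    fin_cases i <;> fin_cases j <;>
      simpa [Matrix.mul_apply, Fin.sum_univ_two, Matrix.single] using this
  have hXb : ∀ j, X (b j) ∈ I • (⊤ : Submodule T ρ.V) := fun j => by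
    rw [← b.sum_repr (X (b j))]
    refine Submodule.sum_mem _ fun i _ => Submodule.smul_mem_smul ?_ Submodule.mem_top
    rw [← LinearMap.toMatrixAlgEquiv_apply b X i j]
    exact h2 i j
  rw [← b.sum_repr v, map_sum]
  exact Submodule.sum_mem _ fun j _ => by
    rw [map_smul]; exact Submodule.smul_mem _ _ (hXb j)

include habs in
/-- Some commutator of Galois elements has unit trace against a Galois element. -/
theorem exists_isUnit_trace_commutator :
    ∃ k g h : AbsGal, IsUnit (LinearMap.trace T ρ.V (ρ.ρ (k * g * h)) -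
      LinearMap.trace T ρ.V (ρ.ρ (g * k * h))) := by
  by_contra hall
  push Not at hall
  set m := IsLocalRing.maximalIdeal T
  let b := Module.finBasisOfFinrankEq T ρ.V ρ.finrank_eq
  have h1 : ∀ k g v, (ρ.ρ k * ρ.ρ g - ρ.ρ g * ρ.ρ k) v ∈ m • (⊤ : Submodule T ρ.V) :=
    fun k g => mem_smul_of_forall_trace_comp ρ habs m _ fun h => by
      rw [LinearMap.trace_mul_comm, sub_mul, ← map_mul, ← map_mul, ← map_mul, ← map_mul, map_sub]
      exact hall k g h
  have hentry : ∀ (X : Module.End T ρ.V), (∀ v, X v ∈ m • (⊤ : Submodule T ρ.V)) →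
      ∀ i j, LinearMap.toMatrixAlgEquiv b X i j ∈ m := fun X hX i j => by
    rw [LinearMap.toMatrixAlgEquiv_apply]
    refine Submodule.smul_induction_on (p := fun y => b.repr y i ∈ m) (hX (b j)) ?_ ?_
    · intro a ha y _
      rw [map_smul, Finsupp.smul_apply, smul_eq_mul]
      exact m.mul_mem_right _ ha
    · intro x y hx hy
      rw [map_add, Finsupp.add_apply]
      exact m.add_mem hx hy
  -- the commutant of the image modulo `m`
  let C : Submodule T (Matrix (Fin 2) (Fin 2) T) :=
    { carrier := {Y | ∀ g i j, (Y * Deform.matOf ρ b g - Deform.matOf ρ b g * Y) i j ∈ m}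
      add_mem' := fun {X Y} hX hY g i j => by
        rw [add_mul, mul_add, add_sub_add_comm]; exact m.add_mem (hX g i j) (hY g i j)
      zero_mem' := fun g i j => by simp
      smul_mem' := fun c Y hY g i j => by
        rw [smul_mul_assoc, mul_smul_comm, ← smul_sub]; exact m.mul_mem_left _ (hY g i j) }
  have hC : C = ⊤ := by
    rw [← top_le_iff, ← Arith.span_matOf_eq_top ρ habs b, Submodule.span_le]
    rintro _ ⟨k, rfl⟩ g i j
    have := hentry _ (h1 k g) i j
    rwa [map_sub, map_mul, map_mul] at this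
  let Dm : Submodule T (Matrix (Fin 2) (Fin 2) T) :=
    { carrier := {Y | ∀ X : Matrix (Fin 2) (Fin 2) T, ∀ i j, (X * Y - Y * X) i j ∈ m}
      add_mem' := fun {A B} hA hB X i j => by
        rw [mul_add, add_mul, add_sub_add_comm]; exact m.add_mem (hA X i j) (hB X i j)
      zero_mem' := fun X i j => by simp
      smul_mem' := fun c Y hY X i j => by
        rw [smul_mul_assoc, mul_smul_comm, ← smul_sub]; exact m.mul_mem_left _ (hY X i j) }
  have hD : Dm = ⊤ := by
    rw [← top_le_iff, ← Arith.span_matOf_eq_top ρ habs b, Submodule.span_le]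
    rintro _ ⟨g, rfl⟩ X i j
    have hX : X ∈ C := by rw [hC]; exact Submodule.mem_top
    exact hX g i j
  have h01 : (Matrix.single 0 1 (1 : T) : Matrix (Fin 2) (Fin 2) T) ∈ Dm := by
    rw [hD]; exact Submodule.mem_top
  have := h01 (Matrix.single 1 0 1) 1 1
  exact (IsLocalRing.maximalIdeal.isMaximal T).ne_top (m.eq_top_iff_one.mpr
    (by simpa [Matrix.single, Matrix.mul_apply, Fin.sum_univ_two] using this))

end Matrices

variable {p : ℕ} [Fact p.Prime] {N : ℕ} [NeZero N] {S : Finset ℕ}
  {O : Type} [CommRing O] [IsDomain O] [IsDiscreteValuationRing O]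
  [IsAdicComplete (IsLocalRing.maximalIdeal O) O]
  {θ : CuspForm.heckeAlgebra N 2 (↑S : Set ℕ) →+* IsLocalRing.ResidueField O}
  {T : Type} [CommRing T] [IsLocalRing T] [IsNoetherianRing T]
  [IsAdicComplete (IsLocalRing.maximalIdeal T) T] [Algebra O T] [IsLocalHom (algebraMap O T)]
  [Module.Finite O T] [Module.Free O T]

/-- Galois on the model modulo `p ^ M`. -/
def galLevel (D : HeckeGaloisModel N p) (M : ℕ) :
    AbsGal →* Matrix (Fin D.d) (Fin D.d) (ZMod (p ^ M)) :=
  (PadicInt.toZModPow M).mapMatrix.toMonoidHom.comp D.gal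

@[simp] lemma galLevel_apply (D : HeckeGaloisModel N p) (M : ℕ) (g : AbsGal) :
    galLevel D M g = (PadicInt.toZModPow M).mapMatrix (D.gal g) := rfl

/-- The group ring acting on the model modulo `p ^ M`. -/
def galAlg (D : HeckeGaloisModel N p) (M : ℕ) :
    ℤ[AbsGal] →ₐ[ℤ] Matrix (Fin D.d) (Fin D.d) (ZMod (p ^ M)) :=
  MonoidAlgebra.lift ℤ _ AbsGal (galLevel D M)

@[simp] lemma galAlg_single (D : HeckeGaloisModel N p) (M : ℕ) (g : AbsGal) (r : ℤ) :
    galAlg D M (MonoidAlgebra.single g r) = r • galLevel D M g :=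
  MonoidAlgebra.lift_single _ _ _

/-- The group ring acting in an adic representation. -/
def repAlg (ρ : GaloisRepAdic T) : ℤ[AbsGal] →ₐ[ℤ] Module.End T ρ.V :=
  MonoidAlgebra.lift ℤ _ AbsGal ρ.ρ

omit [IsNoetherianRing T] [IsAdicComplete (IsLocalRing.maximalIdeal T) T] in
@[simp] lemma repAlg_single (ρ : GaloisRepAdic T) (g : AbsGal) (r : ℤ) :
    repAlg ρ (MonoidAlgebra.single g r) = r • ρ.ρ g :=
  MonoidAlgebra.lift_single _ _ _

/-- The Hecke algebra acting on the model modulo `p ^ M`. -/
def heckeLevel (D : HeckeGaloisModel N p) (M : ℕ) :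
    CuspForm.heckeAlgebra N 2 (↑S : Set ℕ) →+* Matrix (Fin D.d) (Fin D.d) (ZMod (p ^ M)) :=
  ((PadicInt.toZModPow M).mapMatrix.comp (matIn D.hecke ℤ_[p])).comp
    (toFull (↑S : Set ℕ)).toRingHom

lemma galLevel_mul_heckeLevel (D : HeckeGaloisModel N p) (M : ℕ) (g : AbsGal)
    (u : CuspForm.heckeAlgebra N 2 (↑S : Set ℕ)) :
    galLevel D M g * heckeLevel D M u = heckeLevel D M u * galLevel D M g := by
  show (PadicInt.toZModPow M).mapMatrix _ * (PadicInt.toZModPow M).mapMatrix _ =
    (PadicInt.toZModPow M).mapMatrix _ * (PadicInt.toZModPow M).mapMatrix _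
  rw [← map_mul, ← map_mul]
  exact congrArg _ (D.gal_comm g _)

lemma galLevel_mul_inv (D : HeckeGaloisModel N p) (M : ℕ) (g : AbsGal) :
    galLevel D M g * galLevel D M g⁻¹ = 1 := by
  rw [← map_mul, mul_inv_cancel, map_one]

omit [IsNoetherianRing T] [IsAdicComplete (IsLocalRing.maximalIdeal T) T] [Algebra O T]
  [IsLocalHom (algebraMap O T)] [Module.Finite O T] [Module.Free O T] in
/-- At every level a Galois element `g` has a Hecke operator `t` acting as `g + χ(g) g⁻¹`, whose
image in `T` is congruent to the trace of `g`. -/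
theorem exists_heckeLevel_eq (D : HeckeGaloisModel N p) (ρ : GaloisRepAdic T)
    (π : CuspForm.heckeAlgebra N 2 (↑S : Set ℕ) →+* T) (hfrob : FrobCharpoly ρ π)
    {M : ℕ} [NeZero (p ^ M)] {ζ : AlgebraicClosure ℚ} (hζ : IsPrimitiveRoot ζ (p ^ M))
    (g : AbsGal) :
    ∃ t : CuspForm.heckeAlgebra N 2 (↑S : Set ℕ),
      heckeLevel D M t = galLevel D M g +
        (hζ.autToPow ℚ g : ZMod (p ^ M)) • galLevel D M g⁻¹ ∧
      LinearMap.trace T ρ.V (ρ.ρ g) - π t ∈ IsLocalRing.maximalIdeal T ^ M := by
  obtain ⟨t, a, h₁, htr, hza⟩ := exists_matching_of D ρ π hfrob M ζ hζ.pow_eq_one g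
  refine ⟨t, ?_, htr⟩
  have hchi : (a : ZMod (p ^ M)) = (hζ.autToPow ℚ g : ZMod (p ^ M)) := by
    have h2 := (hζ.autToPow_spec ℚ g).trans hza
    have := (hζ.isOfFinOrder (NeZero.ne _)).pow_eq_pow_iff_modEq.mp h2
    rw [← hζ.eq_orderOf, ← ZMod.natCast_eq_natCast_iff] at this
    rw [← this, ZMod.natCast_val, ZMod.cast_id', id_eq]
  have hz : galLevel D M g * galLevel D M g - heckeLevel D M t * galLevel D M g +
      (a : Matrix (Fin D.d) (Fin D.d) (ZMod (p ^ M))) = 0 := by
    rw [← h₁, ← RingHom.mapMatrix_apply, map_add, map_sub, map_mul, map_mul, map_natCast]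
    rfl
  have hinv := galLevel_mul_inv D M g
  rw [sub_add_eq_add_sub, sub_eq_zero] at hz
  rw [← mul_one (heckeLevel D M t), ← hinv, ← mul_assoc, ← hz, add_mul, mul_assoc, hinv, mul_one]
  congr 1
  rw [← map_natCast (algebraMap (ZMod (p ^ M)) (Matrix (Fin D.d) (Fin D.d) (ZMod (p ^ M)))),
    hchi, ← Algebra.smul_def]

omit [IsNoetherianRing T] [IsAdicComplete (IsLocalRing.maximalIdeal T) T] [Algebra O T]
  [IsLocalHom (algebraMap O T)] [Module.Finite O T] [Module.Free O T] in
/-- Relations among Galois elements on the part of the model cut out by a Hecke operator which is a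
unit in `T` hold in the representation. -/
theorem relations_transfer_of (D : HeckeGaloisModel N p) (ρ : GaloisRepAdic T)
    (habs : ρ.residual.IsAbsolutelyIrreducible)
    (hpT : (p : T) ∈ IsLocalRing.maximalIdeal T)
    (π : CuspForm.heckeAlgebra N 2 (↑S : Set ℕ) →+* T) (hfrob : FrobCharpoly ρ π) (n : ℕ) :
    ∃ M₀ : ℕ, ∀ M, M₀ ≤ M → ∀ x : ℤ[AbsGal],
      (∃ u, IsUnit (π u) ∧ galAlg D M x * heckeLevel D M u = 0) →
      ∀ v, repAlg ρ x v ∈ IsLocalRing.maximalIdeal T ^ n • (⊤ : Submodule T ρ.V) := by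
  classical
  obtain ⟨k, hsat⟩ := exists_saturation_of D hpT π
  refine ⟨n + 1 + k, fun M hM x₀ hx₀ => ?_⟩
  obtain ⟨u, hu₀, hxu⟩ := hx₀
  have : NeZero (p ^ M) := ⟨pow_ne_zero _ (Fact.out : p.Prime).ne_zero⟩
  obtain ⟨ζ, hζ⟩ := exists_primitiveRoot (p ^ M)
  let χ : AbsGal →* (ZMod (p ^ M))ˣ := hζ.autToPow ℚ
  choose t hMt htr using exists_heckeLevel_eq D ρ π hfrob hζ
  let Mt := heckeLevel (S := S) D M
  let e : AbsGal → Matrix (Fin D.d) (Fin D.d) (ZMod (p ^ M)) :=
    fun g => (χ g : ZMod (p ^ M)) • galLevel D M g⁻¹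
  have hcomm : ∀ g u, galLevel D M g * Mt u = Mt u * galLevel D M g :=
    galLevel_mul_heckeLevel D M
  have heU : ∀ g v, e g * Mt v = Mt v * e g := fun g v => by
    simp only [e, mul_smul_comm, smul_mul_assoc]
    rw [hcomm]
  have he : ∀ g h, e (g * h) = e h * e g := fun g h => by
    simp only [e, map_mul, mul_inv_rev, Units.val_mul, smul_mul_assoc, mul_smul_comm, smul_smul]
  -- linear extensions
  let eA : ℤ[AbsGal] →+ Matrix (Fin D.d) (Fin D.d) (ZMod (p ^ M)) :=
    (Finsupp.linearCombination ℤ e).toAddMonoidHom.comp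
      MonoidAlgebra.coeffAddEquiv.toAddMonoidHom
  let tA : ℤ[AbsGal] →+ CuspForm.heckeAlgebra N 2 (↑S : Set ℕ) :=
    (Finsupp.linearCombination ℤ t).toAddMonoidHom.comp
      MonoidAlgebra.coeffAddEquiv.toAddMonoidHom
  have heA : ∀ g r, eA (MonoidAlgebra.single g r) = r • e g := fun g r => by
    simp [eA, MonoidAlgebra.coeffAddEquiv]
  have htA : ∀ g r, tA (MonoidAlgebra.single g r) = r • t g := fun g r => by
    simp [tA, MonoidAlgebra.coeffAddEquiv]
  have hsplit : ∀ x, Mt (tA x) = galAlg D M x + eA x := by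
    intro x
    induction x using MonoidAlgebra.induction_linear with
    | zero => simp
    | add x y hx hy => simp only [map_add, hx, hy]; abel
    | single g r =>
      rw [htA, map_zsmul, galAlg_single, heA, ← smul_add]
      exact congrArg _ (hMt g)
  have hmul : ∀ g x, eA (MonoidAlgebra.single g 1 * x) = eA x * e g := by
    intro g x
    induction x using MonoidAlgebra.induction_linear with
    | zero => simp
    | add x y hx hy => rw [mul_add, map_add, map_add, hx, hy, add_mul]
    | single h r => rw [MonoidAlgebra.single_mul_single, one_mul, heA, heA, he, smul_mul_assoc r (e h) (e g)]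
  have htrace : ∀ x, π (tA x) - LinearMap.trace T ρ.V (repAlg ρ x) ∈
      IsLocalRing.maximalIdeal T ^ M := by
    intro x
    induction x using MonoidAlgebra.induction_linear with
    | zero => simp
    | add x y hx hy =>
      simp only [map_add]
      rw [add_sub_add_comm]
      exact Ideal.add_mem _ hx hy
    | single g r =>
      rw [htA, map_zsmul, repAlg_single, map_zsmul, ← smul_sub]
      refine zsmul_mem ?_ r
      rw [← neg_sub]
      exact neg_mem (htr g)
  have hle : IsLocalRing.maximalIdeal T ^ M ≤ IsLocalRing.maximalIdeal T ^ (n + 1) :=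
    Ideal.pow_le_pow_right ((Nat.le_add_right _ k).trans hM)
  have hle' : IsLocalRing.maximalIdeal T ^ (n + 1) ≤ IsLocalRing.maximalIdeal T ^ n :=
    Ideal.pow_le_pow_right n.le_succ
  obtain ⟨k₀, g₀, h₀, hu⟩ := exists_isUnit_trace_commutator ρ habs
  have key : ∀ x, galAlg D M x * Mt u = 0 →
      LinearMap.trace T ρ.V (repAlg ρ x) ∈ IsLocalRing.maximalIdeal T ^ n := by
    intro x hx
    set τ := Mt (tA x * u) with hτdef
    have hτ : eA x * Mt u = τ := by rw [hτdef, map_mul, hsplit, add_mul, hx, zero_add]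
    have hscal : ∀ g, Mt (tA (MonoidAlgebra.single g 1 * x) * u) = τ * e g := fun g => by
      rw [map_mul, hsplit, map_mul, hmul, add_mul, mul_assoc, hx, mul_zero, zero_add, mul_assoc,
        heU, ← mul_assoc, hτ]
    have hA : ∀ g h, τ * galLevel D M g⁻¹ * galLevel D M h =
        galLevel D M h * (τ * galLevel D M g⁻¹) := fun g h => by
      have h2 := hcomm h (tA (MonoidAlgebra.single g 1 * x) * u)
      rw [hscal] at h2
      simp only [e, mul_smul_comm, smul_mul_assoc] at h2
      exact ((χ g).isUnit.smul_left_cancel.mp h2).symm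
    have hab : ∀ g h, τ * (galLevel D M g * galLevel D M h) =
        τ * (galLevel D M h * galLevel D M g) := fun g h => by
      have h2 := hA g⁻¹ h
      rw [inv_inv, ← mul_assoc (galLevel D M h), hcomm h (tA x * u)] at h2
      rw [← mul_assoc, h2, mul_assoc]
    have habe : ∀ g h, τ * (e g * e h) = τ * (e h * e g) := fun g h => by
      simp only [e, mul_smul_comm, smul_mul_assoc, smul_smul, hab g⁻¹ h⁻¹]
      rw [mul_comm]
    have hzero : Mt (tA x * u * (t (k₀ * g₀ * h₀) - t (g₀ * k₀ * h₀))) = 0 := by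
      have h1 : τ * galLevel D M (k₀ * g₀ * h₀) = τ * galLevel D M (g₀ * k₀ * h₀) := by
        simp only [map_mul]
        rw [← mul_assoc τ, ← mul_assoc τ (galLevel D M g₀ * galLevel D M k₀), hab]
      have h2 : τ * e (k₀ * g₀ * h₀) = τ * e (g₀ * k₀ * h₀) := by
        have hc : τ * e h₀ = e h₀ * τ := by
          simp only [e, mul_smul_comm, smul_mul_assoc]
          exact congrArg _ (hcomm _ _).symm
        rw [he (k₀ * g₀), he (g₀ * k₀), he k₀, he g₀, ← mul_assoc τ, ← mul_assoc τ (e h₀), hc,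
          mul_assoc (e h₀), mul_assoc (e h₀), habe]
      have e₁ : Mt (t (k₀ * g₀ * h₀)) = galLevel D M (k₀ * g₀ * h₀) + e (k₀ * g₀ * h₀) := hMt _
      have e₂ : Mt (t (g₀ * k₀ * h₀)) = galLevel D M (g₀ * k₀ * h₀) + e (g₀ * k₀ * h₀) := hMt _
      rw [map_mul, map_sub, ← hτdef, e₁, e₂, mul_sub, mul_add, mul_add, h1, h2, sub_self]
    have hπ := hsat (M - k) _ (by rw [Nat.sub_add_cancel ((Nat.le_add_left k _).trans hM)]; exact hzero)
    have hπ := Ideal.pow_le_pow_right (Nat.le_sub_of_add_le hM) hπ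
    rw [map_mul, map_sub] at hπ
    set d := π (t (k₀ * g₀ * h₀)) - π (t (g₀ * k₀ * h₀)) with hd
    have hdu : IsUnit d := by
      by_contra hd'
      refine (IsLocalRing.mem_maximalIdeal _).mp ?_ hu
      have hM1 : IsLocalRing.maximalIdeal T ^ M ≤ IsLocalRing.maximalIdeal T :=
        Ideal.pow_le_self (lt_of_lt_of_le (Nat.add_pos_left n.succ_pos k) hM).ne'
      have := (IsLocalRing.maximalIdeal T).add_mem
        ((IsLocalRing.mem_maximalIdeal d).mpr hd')
        ((IsLocalRing.maximalIdeal T).sub_mem (hM1 (htr (k₀ * g₀ * h₀)))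
          (hM1 (htr (g₀ * k₀ * h₀))))
      convert this using 1
      rw [hd]; ring
    have hπx : π (tA x) ∈ IsLocalRing.maximalIdeal T ^ (n + 1) := by
      obtain ⟨w, hw⟩ := hu₀.mul hdu
      have := Ideal.mul_mem_right (↑w⁻¹ : T) _ hπ
      rwa [map_mul, mul_assoc (π (tA x)), ← hw, mul_assoc, Units.mul_inv, mul_one] at this
    have := (IsLocalRing.maximalIdeal T ^ (n + 1)).sub_mem hπx (hle (htrace x))
    rw [sub_sub_cancel] at this
    exact hle' this
  refine mem_smul_of_forall_trace_comp ρ habs _ _ fun σ => ?_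
  have := key (MonoidAlgebra.single σ 1 * x₀) (by rw [map_mul, mul_assoc, hxu, mul_zero])
  rwa [map_mul, repAlg_single, one_smul] at this

/-- Relations among Galois elements on the model hold in the datum. -/
theorem relations_transfer (D : HeckeGaloisModel N p)
    (hpO : (p : O) ∈ IsLocalRing.maximalIdeal O)
    (H : CuspForm.HeckeGaloisRepDatum N (↑S : Set ℕ) O θ T) (n : ℕ) :
    ∃ M : ℕ, ∀ x : ℤ[AbsGal], galAlg D M x = 0 →
      ∀ v, repAlg H.ρ x v ∈ IsLocalRing.maximalIdeal T ^ n • (⊤ : Submodule T H.ρ.V) := by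
  have hpT : (p : T) ∈ IsLocalRing.maximalIdeal T := by
    rw [← map_natCast (algebraMap O T) p]; exact map_nonunit (algebraMap O T) _ hpO
  obtain ⟨M, hM⟩ :=
    relations_transfer_of D H.ρ H.residual_absIrr hpT H.π H.charpoly_frob n
  refine ⟨M, fun x hx => hM M le_rfl x ⟨1, ?_, ?_⟩⟩
  · rw [map_one]; exact isUnit_one
  · rw [hx, zero_mul]

end Fermat.Agent.GaloisReps

end
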